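import Fermat.Agent.S15.H975.DescSpec
import Fermat.Agent.S30.H810.Fin

/-!
# S15 / DESC skeleton leaf FIN (helper808)

`finStatement : H975.FinStatement` — `J₀(p)(ℚ̄)[n]` is finite for every `n > 0`.
Adapter of the landed `S30.H810.torsion_finite`.
-/

set_option autoImplicit false

namespace Fermat.Agent.S15.H808

open ModularCurve Fermat.Agent.S15.H975

/-- **FIN**: `J₀(p)[n]` is finite, `n > 0`. -/
theorem finStatement : FinStatement := by
  intro p _ n hn
  haveI : NeZero n := ⟨hn.ne'⟩
  have hfin : {x : JZero p | n • x = 0}.Finite := Fermat.Agent.S30.H810.torsion_finite p n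
  have hsub : ((tors p n : AddSubgroup (JZero p)) : Set (JZero p)) ⊆ {x : JZero p | n • x = 0} :=
    fun x hx => hx
  exact (hfin.subset hsub).to_subtype

end Fermat.Agent.S15.H808
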