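import Mathlib

/-!
# S15 / DESC skeleton leaf RTF, the algebra (helper808)

A finitely generated abelian group has bounded torsion:
`exists_exponent_of_fg : AddGroup.FG A → ∃ e > 0, ∀ t torsion, e • t = 0`.
Mathlib only.
-/

set_option autoImplicit false

namespace Fermat.Agent.S15.H808

/-- The torsion of a finitely generated abelian group has a finite exponent. -/
theorem exists_exponent_of_fg (A : Type*) [AddCommGroup A] (h : AddGroup.FG A) :
    ∃ e : ℕ, 0 < e ∧ ∀ t : A, (∃ m : ℕ, 0 < m ∧ m • t = 0) → e • t = 0 := by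
  have : Module.Finite ℤ A := Module.Finite.iff_addGroup_fg.mpr h
  have : IsNoetherian ℤ A := isNoetherian_of_isNoetherianRing_of_finite ℤ A
  let T : Submodule ℤ A := Submodule.torsion ℤ A
  have : Module.Finite ℤ T := Module.Finite.of_fg (IsNoetherian.noetherian T)
  have htors : Module.IsTorsion ℤ T := Submodule.torsion_isTorsion
  have : Finite T := Module.finite_of_fg_torsion T htors
  refine ⟨Nat.card T, Nat.card_pos, ?_⟩
  rintro t ⟨m, hm0, hm⟩
  have ht : t ∈ T := by
    rw [Submodule.mem_torsion_iff]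
    refine ⟨⟨(m : ℤ), ?_⟩, ?_⟩
    · rw [mem_nonZeroDivisors_iff_ne_zero]
      exact_mod_cast hm0.ne'
    · show (m : ℤ) • t = 0
      rw [natCast_zsmul]
      exact hm
  have h1 : Nat.card T • (⟨t, ht⟩ : T) = 0 := card_nsmul_eq_zero'
  have h2 := congrArg (Subtype.val) h1
  simpa using h2

end Fermat.Agent.S15.H808
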