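import Fermat.Agent.S17.H80.GenusZero
import Fermat.Agent.Lib.RR.H80.Res.ModularGenus

/-!
# S15 / DESC skeleton leaf RTF, the levels `2` and `3` (helper808)

`J₀(2) = J₀(3) = 0` (genus zero: landed S24 + the bridge `genusFF_modular_eq_genusFormula` +
`S17.H80.subsingleton_pic0_of_genusFF_eq_zero`).
-/

set_option autoImplicit false

namespace Fermat.Agent.S15.H808

open ModularCurve

theorem nuTwo_two_h808 : nuTwo 2 = 1 := by
  unfold nuTwo
  rw [Nat.card_eq_fintype_card]
  decide

theorem nuThree_two_h808 : nuThree 2 = 0 := by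
  unfold nuThree
  rw [Nat.card_eq_fintype_card]
  decide

theorem nuTwo_three_h808 : nuTwo 3 = 0 := by
  unfold nuTwo
  rw [Nat.card_eq_fintype_card]
  decide

theorem nuThree_three_h808 : nuThree 3 = 1 := by
  unfold nuThree
  rw [Nat.card_eq_fintype_card]
  decide

theorem dedekindPsi_prime_h808 {p : ℕ} (hp : p.Prime) : dedekindPsi p = p + 1 := by
  unfold dedekindPsi
  rw [hp.divisors, Finset.filter_true_of_mem, Finset.sum_pair hp.one_lt.ne]
  · rw [Nat.div_one, Nat.div_self hp.pos]
  · intro d hd
    rcases Finset.mem_insert.mp hd with rfl | hd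
    · exact squarefree_one
    · rw [Finset.mem_singleton] at hd
      subst hd
      exact hp.squarefree

theorem dedekindPsi_two_h808 : dedekindPsi 2 = 3 := dedekindPsi_prime_h808 Nat.prime_two

theorem dedekindPsi_three_h808 : dedekindPsi 3 = 4 := dedekindPsi_prime_h808 Nat.prime_three

theorem cuspCount_two_h808 : cuspCount 2 = 2 := by
  unfold cuspCount
  decide

theorem cuspCount_three_h808 : cuspCount 3 = 2 := by
  unfold cuspCount
  decide

theorem genusFormula_two_h808 : genusFormula 2 = 0 := by
  unfold genusFormula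
  rw [nuTwo_two_h808, nuThree_two_h808, dedekindPsi_two_h808, cuspCount_two_h808]
  norm_num

theorem genusFormula_three_h808 : genusFormula 3 = 0 := by
  unfold genusFormula
  rw [nuTwo_three_h808, nuThree_three_h808, dedekindPsi_three_h808, cuspCount_three_h808]
  norm_num

/-- `J₀(2)(ℚ̄) = 0`. -/
theorem subsingleton_jZero_two : Subsingleton (JZero 2) := by
  apply Fermat.Agent.S17.H80.subsingleton_pic0_of_genusFF_eq_zero
  have h := Fermat.Agent.Lib.RR.H80.genusFF_modular_eq_genusFormula 2
  rw [genusFormula_two_h808] at h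
  exact_mod_cast h

/-- `J₀(3)(ℚ̄) = 0`. -/
theorem subsingleton_jZero_three : Subsingleton (JZero 3) := by
  apply Fermat.Agent.S17.H80.subsingleton_pic0_of_genusFF_eq_zero
  have h := Fermat.Agent.Lib.RR.H80.genusFF_modular_eq_genusFormula 3
  rw [genusFormula_three_h808] at h
  exact_mod_cast h

end Fermat.Agent.S15.H808
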