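import Fermat.Agent.S15.H975.DescSpec
import Fermat.Agent.S15.H808.RtfAlg
import Fermat.Agent.S15.H808.RtfSmall

/-!
# S15 / DESC skeleton leaf RTF (helper808)

`rtfStatement_of_mw : MWShape → H975.RtfStatement`, where `MWShape` is verbatim the type of the
frozen statement S17 (Mordell–Weil for `J₀(N)`, `N ≥ 5` prime).  The levels `2` and `3`, not
covered by S17, have `J₀ = 0` (`RtfSmall.lean`).

Also the pointwise form `rtf_of_fg` (one level, from `AddGroup.FG` of the rational points).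
-/

set_option autoImplicit false

namespace Fermat.Agent.S15.H808

open ModularCurve Fermat.Agent.S15.H975

/-- The shape of the frozen statement S17. -/
def MWShape : Prop :=
  ∀ (N : ℕ) [NeZero N], N.Prime → 5 ≤ N →
    AddGroup.FG ↥(FixedPoints.addSubgroup
      ((AlgebraicClosure ℚ) ≃ₐ[ℚ] (AlgebraicClosure ℚ)) (JZero N))

/-- **RTF at one level** from Mordell–Weil at that level. -/
theorem rtf_of_fg (p : ℕ) [NeZero p]
    (h : AddGroup.FG ↥(FixedPoints.addSubgroup
      ((AlgebraicClosure ℚ) ≃ₐ[ℚ] (AlgebraicClosure ℚ)) (JZero p))) :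
    ∃ e : ℕ, 0 < e ∧
      ∀ t : JZero p, (∀ σ : Gal, σ • t = t) → (∃ m : ℕ, 0 < m ∧ m • t = 0) → e • t = 0 := by
  obtain ⟨e, he, hE⟩ := exists_exponent_of_fg _ h
  refine ⟨e, he, fun t ht ⟨m, hm0, hm⟩ => ?_⟩
  have h1 := hE ⟨t, ht⟩ ⟨m, hm0, Subtype.ext hm⟩
  exact congrArg Subtype.val h1

/-- **RTF at one level** when `J₀(p) = 0`. -/
theorem rtf_of_subsingleton (p : ℕ) [NeZero p] (h : Subsingleton (JZero p)) :
    ∃ e : ℕ, 0 < e ∧
      ∀ t : JZero p, (∀ σ : Gal, σ • t = t) → (∃ m : ℕ, 0 < m ∧ m • t = 0) → e • t = 0 :=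
  ⟨1, one_pos, fun _ _ _ => Subsingleton.elim _ _⟩

/-- **RTF** from the frozen S17 shape. -/
theorem rtfStatement_of_mw (h : MWShape) : RtfStatement := by
  intro p _ hp
  rcases Nat.lt_or_ge p 5 with h5 | h5
  · have h2 := hp.two_le
    have hp' : p = 2 ∨ p = 3 := by
      rcases (show p = 2 ∨ p = 3 ∨ p = 4 by omega) with h | h | h
      · exact Or.inl h
      · exact Or.inr h
      · subst h
        exact absurd hp (by decide)
    rcases hp' with rfl | rfl
    · exact rtf_of_subsingleton 2 subsingleton_jZero_two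
    · exact rtf_of_subsingleton 3 subsingleton_jZero_three
  · exact rtf_of_fg p (h p hp h5)

end Fermat.Agent.S15.H808
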