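import Fermat.Agent.S15.H242.BaseE
import Fermat.Agent.S15.H11.Tau0

/-!
# S15 / DESC, node STEP: a UNIVERSAL inertia element `τ₀` at `p` (helper808)

`StepStatement` asks for ONE `τ₀ ∈ I_A` (`A | p`) serving every Eisenstein piece.  For the pieces
of type `ω` (and all pieces when `r = 2`) it is enough that `τ₀` moves an `r`-th root `π` of `p`
(`H11.dvd_padicValRat_of_fixed_by`).  For the pieces with TRIVIAL action and `r` odd the
characters `χ_y : G_ℚ → F/F' ≅ ℤ/r` are unramified outside `p`, and one needs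
`χ_y τ₀ = 1 ⇒ χ_y = 1`.  Both at once:

* `exists_tau0_strong` : there is `τ₀ ∈ I_A` with `τ₀ π ≠ π` and such that EVERY character
  `χ : G_ℚ → H` (`|H| = r`) of finite level, unramified outside `p`, with `χ τ₀ = 1` is trivial.

Proof: all such characters are powers of one `χ₀` (`H242.BaseE.exists_generator`), `χ₀ ≠ 1` is
ramified at `A` (`ramified_of_ne_one`), some inertia element moves `π`
(`H11.exists_inertia_moves_root`), and a group is not the union of two proper subgroups.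
-/

set_option autoImplicit false

namespace Fermat.Agent.S15.H808

open Fermat.Agent.S15.H242.BaseE

/-- **TAU0, strong form.** -/
theorem exists_tau0_strong {p r : ℕ} (hp : p.Prime) (hr : r.Prime) (hrp : r ≠ p)
    (A : ValuationSubring (AlgebraicClosure ℚ)) (hA : A.LiesOverPrime p)
    {π : AlgebraicClosure ℚ} (hπ : π ^ r = (p : AlgebraicClosure ℚ))
    {H : Type*} [CommGroup H] [Finite H] (hcard : Nat.card H = r) :
    ∃ τ₀ ∈ A.inertiaSubgroupIn ℚ, τ₀ π ≠ π ∧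
      ∀ χ : GalQ →* H, FiniteLevel χ → UnramifiedOutside χ p → χ τ₀ = 1 → ∀ σ, χ σ = 1 := by
  obtain ⟨χ₀, h₀, hu₀, hgen⟩ := exists_generator (H := H) hp hr hrp hcard
  obtain ⟨σ₂, hσ₂, hσ₂π⟩ := Fermat.Agent.S15.H11.exists_inertia_moves_root A hp hr hA hπ
  have hexp : ∀ h : H, h ^ r = 1 := fun h => by
    rw [← hcard]
    exact pow_card_eq_one'
  by_cases htriv : ∀ σ, χ₀ σ = 1
  · refine ⟨σ₂, hσ₂, hσ₂π, fun χ hχ hχu _ σ => ?_⟩
    obtain ⟨k, hk⟩ := hgen χ hχ hχu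
    rw [hk σ, htriv σ, one_pow]
  · push Not at htriv
    obtain ⟨σ₀, hσ₀⟩ := htriv
    obtain ⟨σ₁, hσ₁, hσ₁χ⟩ := ramified_of_ne_one hp χ₀ h₀ hu₀ hσ₀ A hA
    obtain ⟨τ₀, hτ₀, hτ₀π, hτ₀χ⟩ :
        ∃ τ₀ ∈ A.inertiaSubgroupIn ℚ, τ₀ π ≠ π ∧ χ₀ τ₀ ≠ 1 := by
      by_cases h1 : σ₁ π = π
      · by_cases h2 : χ₀ σ₂ = 1
        · refine ⟨σ₁ * σ₂, mul_mem hσ₁ hσ₂, ?_, ?_⟩
          · intro h
            have h3 : σ₁ (σ₂ π) = σ₁ π := by
              rw [h1]
              exact h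
            exact hσ₂π (σ₁.injective h3)
          · rw [map_mul, h2, mul_one]
            exact hσ₁χ
        · exact ⟨σ₂, hσ₂, hσ₂π, h2⟩
      · exact ⟨σ₁, hσ₁, h1, hσ₁χ⟩
    refine ⟨τ₀, hτ₀, hτ₀π, fun χ hχ hχu hχτ σ => ?_⟩
    obtain ⟨k, hk⟩ := hgen χ hχ hχu
    have h1 : χ₀ τ₀ ^ k = 1 := by
      rw [← hk τ₀]
      exact hχτ
    have hord : orderOf (χ₀ τ₀) = r := by
      have hdvd : orderOf (χ₀ τ₀) ∣ r := by
        rw [← hcard]
        exact orderOf_dvd_natCard _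
      rcases (Nat.dvd_prime hr).mp hdvd with h | h
      · exact absurd (orderOf_eq_one_iff.mp h) hτ₀χ
      · exact h
    have hrk : r ∣ k := by
      rw [← hord]
      exact orderOf_dvd_of_pow_eq_one h1
    obtain ⟨m, rfl⟩ := hrk
    rw [hk σ, pow_mul, hexp, one_pow]

end Fermat.Agent.S15.H808
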